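import Mathlib

/-!
# GATE-K / N7d-ABS : the pencil count, HEDGE copy (helper70)

CANONICAL version: `Fermat/Agent/GK/Flat/Pencil.lean` (helper66, namespace `Fermat.Agent.GK.Pencil`).
This file lives in its own namespace `Fermat.Agent.GK.Count.PencilAlt` (no shared names); it differs
only in hypothesis shapes (`hfin` explicit, injectivity only on `T n`).

Abstract linear-algebra core of the equality `|Σ| = 1 + g(N) - 2 g(N')`
(helper31's note 2196 (ii), steps (4) and (5)).

`S n ≤ T n` are graded families of subspaces of a commutative `k`-algebra `R`, stable under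
multiplication by two elements `s0 s1` (of degree one).  If

* `n ↦ dim T n` is affine-linear for `n ≥ n0` (`hcount`),
* `s0 T ∩ s1 T = s0 s1 T` in the element form `hpencil` (`s0`, `s1` have no common zero),
* every element of `T n` is moved into `S` by a power of `s0` and by a power of `s1`
  (the two affine charts, `hsat0`, `hsat1`),

then `S N = T N` for all large `N`.
-/

set_option autoImplicit false

namespace Fermat.Agent.GK.Count.PencilAlt

open Module

variable {k R : Type*} [Field k] [CommRing R] [Algebra k R]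

section Basic

variable (S : ℕ → Submodule k R) (s : R)

/-- closure under powers of a degree-one element -/
theorem pow_mul_mem (hS : ∀ n, ∀ z ∈ S n, s * z ∈ S (n + 1)) (e : ℕ) {n : ℕ} {z : R}
    (hz : z ∈ S n) : s ^ e * z ∈ S (n + e) := by
  induction e with
  | zero => simpa using hz
  | succ e ih =>
    have h := hS (n + e) _ ih
    have e1 : s * (s ^ e * z) = s ^ (e + 1) * z := by ring
    rw [e1] at h
    exact h

/-- multiplication by `s`, as a linear map -/
noncomputable def mulL (s : R) : R →ₗ[k] R := LinearMap.mulLeft k s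

@[simp] theorem mulL_apply (s z : R) : mulL (k := k) s z = s * z := rfl

theorem finrank_map_mulL (V : Submodule k R) (hinj : ∀ z ∈ V, s * z = 0 → z = 0) :
    finrank k (V.map (mulL (k := k) s)) = finrank k V := by
  have hinj' : Function.Injective ((mulL (k := k) s).domRestrict V) := by
    rw [← LinearMap.ker_eq_bot, LinearMap.ker_eq_bot']
    intro z hz
    apply Subtype.ext
    exact hinj z z.2 hz
  rw [← LinearMap.range_domRestrict]
  exact LinearMap.finrank_range_of_inj hinj'

end Basic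

section Main

variable (S T : ℕ → Submodule k R) (s0 s1 : R) (n0 : ℕ)
variable (hST : ∀ n, S n ≤ T n) (hfin : ∀ n, FiniteDimensional k (T n))
variable (hS0 : ∀ n, ∀ z ∈ S n, s0 * z ∈ S (n + 1)) (hS1 : ∀ n, ∀ z ∈ S n, s1 * z ∈ S (n + 1))
variable (hT0 : ∀ n, ∀ z ∈ T n, s0 * z ∈ T (n + 1)) (hT1 : ∀ n, ∀ z ∈ T n, s1 * z ∈ T (n + 1))
variable (hinj0 : ∀ n, ∀ z ∈ T n, s0 * z = 0 → z = 0)
variable (hinj1 : ∀ n, ∀ z ∈ T n, s1 * z = 0 → z = 0)
variable (hcount : ∀ n, n0 ≤ n →
  finrank k (T (n + 2)) + finrank k (T n) = 2 * finrank k (T (n + 1)))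
variable (hpencil : ∀ n, n0 ≤ n → ∀ x ∈ T (n + 1), ∀ y ∈ T (n + 1), s0 * x = s1 * y →
  ∃ w ∈ T n, x = s1 * w ∧ y = s0 * w)
variable (hsat0 : ∀ n, ∀ z ∈ T n, ∃ a, s0 ^ a * z ∈ S (n + a))
variable (hsat1 : ∀ n, ∀ z ∈ T n, ∃ a, s1 ^ a * z ∈ S (n + a))

include hfin hT0 hT1 hinj0 hinj1 hcount hpencil in
/-- **Step (4).**  `T (n+2) = s0 • T (n+1) + s1 • T (n+1)` for `n ≥ n0`. -/
theorem sup_map_eq (n : ℕ) (hn : n0 ≤ n) :
    (T (n + 1)).map (mulL (k := k) s0) ⊔ (T (n + 1)).map (mulL (k := k) s1) = T (n + 2) := by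
  have := hfin (n + 2)
  have := hfin (n + 1)
  have := hfin n
  set U0 := (T (n + 1)).map (mulL (k := k) s0) with hU0
  set U1 := (T (n + 1)).map (mulL (k := k) s1) with hU1
  have hU0le : U0 ≤ T (n + 2) := by
    rintro _ ⟨z, hz, rfl⟩
    exact hT0 (n + 1) z hz
  have hU1le : U1 ≤ T (n + 2) := by
    rintro _ ⟨z, hz, rfl⟩
    exact hT1 (n + 1) z hz
  have hle : U0 ⊔ U1 ≤ T (n + 2) := sup_le hU0le hU1le
  -- the intersection
  have hinf : U0 ⊓ U1 = (T n).map (mulL (k := k) (s0 * s1)) := by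
    apply le_antisymm
    · rintro v ⟨⟨x, hx, hxv⟩, ⟨y, hy, hyv⟩⟩
      have hxy : s0 * x = s1 * y := by
        have h1 : s0 * x = v := hxv
        have h2 : s1 * y = v := hyv
        rw [h1, h2]
      obtain ⟨w, hw, hxw, -⟩ := hpencil n hn x hx y hy hxy
      refine ⟨w, hw, ?_⟩
      have h1 : s0 * x = v := hxv
      rw [mulL_apply, ← h1, hxw]
      ring
    · rintro _ ⟨w, hw, rfl⟩
      refine ⟨⟨s1 * w, hT1 n w hw, ?_⟩, ⟨s0 * w, hT0 n w hw, ?_⟩⟩
      · simp only [mulL_apply]; ring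
      · simp only [mulL_apply]; ring
  have hd0 : finrank k U0 = finrank k (T (n + 1)) :=
    finrank_map_mulL s0 (T (n + 1)) (hinj0 (n + 1))
  have hd1 : finrank k U1 = finrank k (T (n + 1)) :=
    finrank_map_mulL s1 (T (n + 1)) (hinj1 (n + 1))
  have hd01 : finrank k ((T n).map (mulL (k := k) (s0 * s1))) = finrank k (T n) := by
    apply finrank_map_mulL
    intro z hz h0
    have h1 : s0 * (s1 * z) = 0 := by rw [← mul_assoc]; exact h0
    have h2 : s1 * z = 0 := hinj0 (n + 1) _ (hT1 n z hz) h1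
    exact hinj1 n z hz h2
  have hU0fin : FiniteDimensional k U0 := Submodule.finiteDimensional_of_le hU0le
  have hU1fin : FiniteDimensional k U1 := Submodule.finiteDimensional_of_le hU1le
  have hsum := Submodule.finrank_sup_add_finrank_inf_eq U0 U1
  rw [hinf, hd01, hd0, hd1] at hsum
  have hc := hcount n hn
  apply Submodule.eq_of_le_of_finrank_eq hle
  omega

/-- the span of the monomials `s0^i s1^j w`, `i + j = d`, `w ∈ V` -/
def monomialSpan (V : Submodule k R) (s0 s1 : R) (d : ℕ) : Submodule k R :=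
  Submodule.span k {v | ∃ i j : ℕ, i + j = d ∧ ∃ w ∈ V, v = s0 ^ i * s1 ^ j * w}

theorem mul_mem_monomialSpan_left (V : Submodule k R) (d : ℕ) {z : R}
    (hz : z ∈ monomialSpan V s0 s1 d) : s0 * z ∈ monomialSpan V s0 s1 (d + 1) := by
  unfold monomialSpan at hz ⊢
  induction hz using Submodule.span_induction with
  | mem v hv =>
    obtain ⟨i, j, hij, w, hw, rfl⟩ := hv
    refine Submodule.subset_span ⟨i + 1, j, by omega, w, hw, ?_⟩
    ring
  | zero => simp
  | add x y _ _ hx hy => rw [mul_add]; exact Submodule.add_mem _ hx hy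
  | smul c x _ hx => rw [mul_smul_comm]; exact Submodule.smul_mem _ c hx

theorem mul_mem_monomialSpan_right (V : Submodule k R) (d : ℕ) {z : R}
    (hz : z ∈ monomialSpan V s0 s1 d) : s1 * z ∈ monomialSpan V s0 s1 (d + 1) := by
  unfold monomialSpan at hz ⊢
  induction hz using Submodule.span_induction with
  | mem v hv =>
    obtain ⟨i, j, hij, w, hw, rfl⟩ := hv
    refine Submodule.subset_span ⟨i, j + 1, by omega, w, hw, ?_⟩
    ring
  | zero => simp
  | add x y _ _ hx hy => rw [mul_add]; exact Submodule.add_mem _ hx hy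
  | smul c x _ hx => rw [mul_smul_comm]; exact Submodule.smul_mem _ c hx

include hfin hT0 hT1 hinj0 hinj1 hcount hpencil in
/-- iterating step (4): `T (n0 + 1 + d)` is spanned by the monomials of degree `d` times
`T (n0 + 1)`. -/
theorem le_monomialSpan (d : ℕ) :
    T (n0 + 1 + d) ≤ monomialSpan (T (n0 + 1)) s0 s1 d := by
  induction d with
  | zero =>
    intro w hw
    exact Submodule.subset_span ⟨0, 0, rfl, w, hw, by simp⟩
  | succ d ih =>
    have h := sup_map_eq T s0 s1 n0 hfin hT0 hT1 hinj0 hinj1 hcount hpencil (n0 + d) (by omega)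
    have e1 : n0 + d + 2 = n0 + 1 + (d + 1) := by omega
    have e2 : n0 + d + 1 = n0 + 1 + d := by omega
    rw [e1, e2] at h
    rw [← h]
    apply sup_le
    · rintro _ ⟨z, hz, rfl⟩
      exact mul_mem_monomialSpan_left s0 s1 _ d (ih hz)
    · rintro _ ⟨z, hz, rfl⟩
      exact mul_mem_monomialSpan_right s0 s1 _ d (ih hz)

include hfin in
/-- a uniform exponent on a finite-dimensional space -/
theorem exists_uniform_exponent (s : R) (hS : ∀ n, ∀ z ∈ S n, s * z ∈ S (n + 1))
    (hsat : ∀ n, ∀ z ∈ T n, ∃ a, s ^ a * z ∈ S (n + a)) (n : ℕ) :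
    ∃ a, ∀ b, a ≤ b → ∀ z ∈ T n, s ^ b * z ∈ S (n + b) := by
  classical
  have := hfin n
  have hfg : (T n).FG := (Submodule.fg_iff_finiteDimensional _).mpr inferInstance
  obtain ⟨B, hB⟩ := hfg
  have hBT : ∀ v ∈ B, v ∈ T n := fun v hv => hB ▸ Submodule.subset_span hv
  choose! e he using fun v (hv : v ∈ T n) => hsat n v hv
  refine ⟨B.sup e, fun b hb z hz => ?_⟩
  rw [← hB] at hz
  induction hz using Submodule.span_induction with
  | mem v hv =>
    have hvB : v ∈ B := hv
    have h1 : e v ≤ b := le_trans (Finset.le_sup hvB) hb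
    have h2 := pow_mul_mem S s hS (b - e v) (he v (hBT v hvB))
    have e1 : s ^ (b - e v) * (s ^ e v * v) = s ^ b * v := by
      rw [← mul_assoc, ← pow_add, Nat.sub_add_cancel h1]
    have e2 : n + e v + (b - e v) = n + b := by omega
    rw [e1, e2] at h2
    exact h2
  | zero => simp
  | add x y _ _ hx hy => rw [mul_add]; exact Submodule.add_mem _ hx hy
  | smul c x _ hx => rw [mul_smul_comm]; exact Submodule.smul_mem _ c hx

include hST hfin hS0 hS1 hT0 hT1 hinj0 hinj1 hcount hpencil hsat0 hsat1 in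
/-- **The pencil count.**  `S N = T N` for all large `N`. -/
theorem eq_of_pencil : ∃ N0, ∀ N, N0 ≤ N → S N = T N := by
  obtain ⟨a0, ha0⟩ := exists_uniform_exponent S T hfin s0 hS0 hsat0 (n0 + 1)
  obtain ⟨a1, ha1⟩ := exists_uniform_exponent S T hfin s1 hS1 hsat1 (n0 + 1)
  set a := max a0 a1 with ha
  refine ⟨n0 + 1 + 2 * a, fun N hN => le_antisymm (hST N) ?_⟩
  obtain ⟨d, rfl⟩ : ∃ d, N = n0 + 1 + d := ⟨N - (n0 + 1), by omega⟩
  have hd : 2 * a ≤ d := by omega
  refine le_trans
    (le_monomialSpan T s0 s1 n0 hfin hT0 hT1 hinj0 hinj1 hcount hpencil d) ?_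
  unfold monomialSpan
  rw [Submodule.span_le]
  rintro _ ⟨i, j, hij, w, hw, rfl⟩
  by_cases hi : a ≤ i
  · -- `s0 ^ i` does the job
    have h1 := ha0 a (le_max_left _ _) w hw
    have h2 := pow_mul_mem S s0 hS0 (i - a) h1
    have h3 := pow_mul_mem S s1 hS1 j h2
    have e1 : s1 ^ j * (s0 ^ (i - a) * (s0 ^ a * w)) = s0 ^ i * s1 ^ j * w := by
      have : s0 ^ i = s0 ^ (i - a) * s0 ^ a := by rw [← pow_add, Nat.sub_add_cancel hi]
      rw [this]; ring
    have e2 : n0 + 1 + a + (i - a) + j = n0 + 1 + d := by omega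
    rw [e1, e2] at h3
    exact h3
  · have hj : a ≤ j := by omega
    have h1 := ha1 a (le_max_right _ _) w hw
    have h2 := pow_mul_mem S s1 hS1 (j - a) h1
    have h3 := pow_mul_mem S s0 hS0 i h2
    have e1 : s0 ^ i * (s1 ^ (j - a) * (s1 ^ a * w)) = s0 ^ i * s1 ^ j * w := by
      have : s1 ^ j = s1 ^ (j - a) * s1 ^ a := by rw [← pow_add, Nat.sub_add_cancel hj]
      rw [this]; ring
    have e2 : n0 + 1 + a + (j - a) + i = n0 + 1 + d := by omega
    rw [e1, e2] at h3
    exact h3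

include hST hfin hS0 hS1 hT0 hT1 hinj0 hinj1 hcount hpencil hsat0 hsat1 in
/-- dimension form -/
theorem finrank_eq_of_pencil : ∃ N0, ∀ N, N0 ≤ N → finrank k (S N) = finrank k (T N) := by
  obtain ⟨N0, h⟩ := eq_of_pencil S T s0 s1 n0 hST hfin hS0 hS1 hT0 hT1 hinj0 hinj1 hcount
    hpencil hsat0 hsat1
  exact ⟨N0, fun N hN => by rw [h N hN]⟩

end Main

end Fermat.Agent.GK.Count.PencilAlt
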